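/-
GATE-L / PREP (helper62): **chart saturation without knowing the singularities**.

For a `ChartPair P` (helper33, GK/Core/TwistLt.lean: two affine charts `Bt`, `Binf` of the special
fibre inside a commutative `k`-algebra `κ`, chart function `s ∈ Bt`, `s⁻¹ ∈ Binf`) the graded
family `P.T n = { z ∈ Bt | z / s^n ∈ Binf }` satisfies, with NO information on the singularities
of the fibre (nodal, planar triple points, tangent branches, non-reduced: irrelevant):

* `finrank_T_convex` : `2 dim T(n+1) ≤ dim T(n) + dim T(n+2)`, because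
  `ker (T(n+1) → T(n+2)/T(n+1), z ↦ s z) = T(n)`.
* `exists_pencil` : if `dim T(n) ≤ C n + c` for all `n`, the increments `dim T(n+1) - dim T(n)`
  are non-decreasing and bounded, hence eventually constant, hence
  `T(N) = T(N-1) + s T(N-1)` for all large `N` (= the `hpen` hypothesis of helper66's
  `Pencil.eventually_eq_of_pencil` with `s0 = 1`, `s1 = s`; no Hilbert function needed).
* `eventually_eq` : if `S n ≤ T n` is the family of reductions of the generic-fibre spaces
  (`S` increasing, stable under `s`, every element of `Bt` lies in some `S N`, every `y ∈ Binf`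
  has `s^a y ∈ S a` for some `a`), then `S N = T N` for all large `N`.
* `exists_hdimT` : the `hdimT` hypothesis of `claim2_core` from the dimension of `S`.

Mathlib + two Mathlib-only GK files.
-/
import Fermat.Agent.GK.Core.TwistLt
import Fermat.Agent.GK.Flat.Pencil

set_option autoImplicit false

namespace Fermat.Agent.GL.ChartSat

open Module Submodule Fermat.Agent.GK.Core.Twist Fermat.Agent.GK.Pencil

variable {k κ : Type*} [Field k] [CommRing κ] [Algebra k κ] (P : ChartPair k κ)

theorem s_mul_eq_zero {z : κ} (h : P.s * z = 0) : z = 0 := by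
  have : P.sinv * (P.s * z) = z := by
    rw [← mul_assoc, mul_comm P.sinv, P.s_mul_sinv, one_mul]
  rw [← this, h, mul_zero]

theorem s_mul_mem_T {n : ℕ} {z : κ} (hz : z ∈ P.T n) : P.s * z ∈ P.T (n + 1) := by
  have := P.mul_mem_T P.s_mem_T hz
  rwa [Nat.add_comm] at this

/-- the kernel of `z ↦ [s z] : T(n+1) → T(n+2)/T(n+1)` is `T n`. -/
theorem mem_T_of_s_mul_mem {n : ℕ} {z : κ} (hz : z ∈ P.Bt) (h : P.s * z ∈ P.T (n + 1)) :
    z ∈ P.T n := by
  refine ⟨hz, ?_⟩
  have h2 := h.2
  have e : P.s * z * P.sinv ^ (n + 1) = z * P.sinv ^ n := by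
    rw [pow_succ]
    calc P.s * z * (P.sinv ^ n * P.sinv) = (P.s * P.sinv) * (z * P.sinv ^ n) := by ring
      _ = z * P.sinv ^ n := by rw [P.s_mul_sinv, one_mul]
  rwa [e] at h2

section Convex

variable [hfd : ∀ n, FiniteDimensional k (P.T n)]

/-- **Convexity of the Hilbert function** of `T`. -/
theorem finrank_T_convex (n : ℕ) :
    2 * finrank k (P.T (n + 1)) ≤ finrank k (P.T n) + finrank k (P.T (n + 2)) ∧
    (2 * finrank k (P.T (n + 1)) = finrank k (P.T n) + finrank k (P.T (n + 2)) →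
      P.T (n + 2) = (P.T (n + 1)).map (mulL 1) ⊔ (P.T (n + 1)).map (mulL P.s)) := by
  set A : Submodule k κ := (P.T (n + 1)).map (mulL 1) with hA
  set B : Submodule k κ := (P.T (n + 1)).map (mulL P.s) with hB
  have hA1 : A = P.T (n + 1) := by
    rw [hA]
    ext x
    simp
  have hBle : B ≤ P.T (n + 2) := by
    intro x hx
    obtain ⟨w, hw, rfl⟩ := mem_map_mulL.mp hx
    exact s_mul_mem_T P hw
  have hAle : A ≤ P.T (n + 2) := by
    rw [hA1]; exact P.T_mono (by omega)
  have hle : A ⊔ B ≤ P.T (n + 2) := sup_le hAle hBle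
  have hinf : A ⊓ B ≤ (P.T n).map (mulL P.s) := by
    intro v hv
    obtain ⟨hvA, hvB⟩ := Submodule.mem_inf.mp hv
    rw [hA1] at hvA
    obtain ⟨w, hw, rfl⟩ := mem_map_mulL.mp hvB
    exact mem_map_mulL.mpr ⟨w, mem_T_of_s_mul_mem P hw.1 hvA, rfl⟩
  have hs : ∀ z, P.s * z = 0 → z = 0 := fun z => s_mul_eq_zero P
  have : FiniteDimensional k A := by rw [hA]; infer_instance
  have : FiniteDimensional k B := by rw [hB]; infer_instance
  have h1 : finrank k (A ⊓ B : Submodule k κ) ≤ finrank k (P.T n) := by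
    have := Submodule.finrank_mono hinf
    rwa [finrank_map_mulL _ hs] at this
  have h2 : finrank k (A ⊔ B : Submodule k κ) + finrank k (A ⊓ B : Submodule k κ)
      = finrank k A + finrank k B := Submodule.finrank_sup_add_finrank_inf_eq A B
  have hAr : finrank k A = finrank k (P.T (n + 1)) := by rw [hA1]
  have hBr : finrank k B = finrank k (P.T (n + 1)) := finrank_map_mulL _ hs _
  have h3 : finrank k (A ⊔ B : Submodule k κ) ≤ finrank k (P.T (n + 2)) :=
    Submodule.finrank_mono hle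
  refine ⟨by omega, fun heq => ?_⟩
  have h4 : finrank k (P.T (n + 2)) ≤ finrank k (A ⊔ B : Submodule k κ) := by omega
  exact (Submodule.eq_of_le_of_finrank_le hle h4).symm

/-- the increment `dim T(n+1) - dim T(n)`. -/
noncomputable def incr (n : ℕ) : ℕ := finrank k (P.T (n + 1)) - finrank k (P.T n)

theorem finrank_T_mono {n n' : ℕ} (h : n ≤ n') : finrank k (P.T n) ≤ finrank k (P.T n') :=
  Submodule.finrank_mono (P.T_mono h)

theorem finrank_succ_eq (n : ℕ) :
    finrank k (P.T (n + 1)) = finrank k (P.T n) + incr P n := by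
  have := finrank_T_mono P (show n ≤ n + 1 by omega)
  unfold incr
  omega

theorem incr_mono : Monotone (incr P) := by
  refine monotone_nat_of_le_succ fun n => ?_
  have h := (finrank_T_convex P n).1
  have e1 := finrank_succ_eq P n
  have e2 : finrank k (P.T (n + 2)) = finrank k (P.T (n + 1)) + incr P (n + 1) :=
    finrank_succ_eq P (n + 1)
  omega

theorem finrank_add_ge (n j : ℕ) :
    finrank k (P.T n) + j * incr P n ≤ finrank k (P.T (n + j)) := by
  induction j with
  | zero => simp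
  | succ j ih =>
    have e := finrank_succ_eq P (n + j)
    have hm : incr P n ≤ incr P (n + j) := incr_mono P (by omega)
    have : n + (j + 1) = n + j + 1 := by omega
    rw [this, e, Nat.succ_mul]
    omega

/-- a linear bound on `dim T(n)` bounds the increments. -/
theorem incr_le (C c : ℕ) (hb : ∀ n, finrank k (P.T n) ≤ C * n + c) (n : ℕ) : incr P n ≤ C := by
  by_contra hcon
  have hC : C + 1 ≤ incr P n := by omega
  set j := C * n + c + 1 with hj
  have h1 := finrank_add_ge P n j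
  have h2 := hb (n + j)
  have h3 : j * (C + 1) ≤ j * incr P n := Nat.mul_le_mul_left _ hC
  have h4 : j * (C + 1) = j * C + j := by ring
  have h5 : C * (n + j) = C * n + j * C := by ring
  omega

/-- a bounded monotone sequence of naturals is eventually constant. -/
theorem eventually_const_of_monotone_bounded (g : ℕ → ℕ) (hg : Monotone g) (C : ℕ)
    (hC : ∀ n, g n ≤ C) : ∃ n2, ∀ n, n2 ≤ n → g n = g n2 := by
  classical
  have hbdd : BddAbove (Set.range g) := ⟨C, by rintro _ ⟨n, rfl⟩; exact hC n⟩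
  have hne : (Set.range g).Nonempty := ⟨g 0, ⟨0, rfl⟩⟩
  obtain ⟨n2, hn2⟩ := Nat.sSup_mem hne hbdd
  refine ⟨n2, fun n hn => le_antisymm ?_ (hg hn)⟩
  rw [hn2]
  exact le_csSup hbdd ⟨n, rfl⟩

/-- **Pencil generation from a linear bound**: `T N = T (N-1) + s T (N-1)` for all large `N`. -/
theorem exists_pencil (C c : ℕ) (hb : ∀ n, finrank k (P.T n) ≤ C * n + c) :
    ∃ n2, ∀ N, n2 + 1 ≤ N →
      P.T N ≤ (P.T (N - 1)).map (mulL 1) ⊔ (P.T (N - 1)).map (mulL P.s) := by
  obtain ⟨n1, hn1⟩ := eventually_const_of_monotone_bounded (incr P) (incr_mono P) C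
    (incr_le P C c hb)
  refine ⟨n1 + 1, fun N hN => ?_⟩
  obtain ⟨n, rfl⟩ : ∃ n, N = n + 2 := ⟨N - 2, by omega⟩
  have hn : n1 ≤ n := by omega
  have e0 := hn1 n hn
  have e1 := hn1 (n + 1) (by omega)
  have f0 := finrank_succ_eq P n
  have f1 : finrank k (P.T (n + 2)) = finrank k (P.T (n + 1)) + incr P (n + 1) :=
    finrank_succ_eq P (n + 1)
  have heq : 2 * finrank k (P.T (n + 1)) = finrank k (P.T n) + finrank k (P.T (n + 2)) := by
    omega
  have := (finrank_T_convex P n).2 heq
  have e : n + 2 - 1 = n + 1 := by omega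
  rw [e]
  exact this.le

end Convex

section Sat

variable (S : ℕ → Submodule k κ)

theorem pow_s_mul_mem (hS1 : ∀ n, ∀ z ∈ S n, P.s * z ∈ S (n + 1)) (c n : ℕ) (z : κ)
    (hz : z ∈ S n) : P.s ^ c * z ∈ S (n + c) :=
  pow_mul_mem S P.s hS1 c n z hz

omit P in
theorem S_mono_of_succ (hS0 : ∀ n, S n ≤ S (n + 1)) {n n' : ℕ} (h : n ≤ n') : S n ≤ S n' := by
  obtain ⟨d, rfl⟩ := Nat.exists_eq_add_of_le h
  induction d with
  | zero => exact le_rfl
  | succ d ih => exact (ih (by omega)).trans (hS0 (n + d))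

/-- **Chart saturation.**  `S N = T N` for all large `N`, for ANY chart pair with a linear bound
on `dim T(n)`, provided `S` consists of reductions: every element of the finite chart `Bt` lies in
some `S N`, and every element `y` of the chart at infinity has `s^a y ∈ S a` for some `a`. -/
theorem eventually_eq [hfd : ∀ n, FiniteDimensional k (P.T n)]
    (C c : ℕ) (hb : ∀ n, finrank k (P.T n) ≤ C * n + c)
    (hST : ∀ n, S n ≤ P.T n)
    (hS0 : ∀ n, S n ≤ S (n + 1))
    (hS1 : ∀ n, ∀ z ∈ S n, P.s * z ∈ S (n + 1))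
    (hfin : ∀ z ∈ P.Bt, ∃ N, z ∈ S N)
    (hinf : ∀ y ∈ P.Binf, ∃ a, P.s ^ a * y ∈ S a) :
    ∃ N0, ∀ N, N0 ≤ N → S N = P.T N := by
  obtain ⟨n2, hpen⟩ := exists_pencil P C c hb
  have hS0' : ∀ n, ∀ z ∈ S n, (1 : κ) * z ∈ S (n + 1) := by
    intro n z hz
    rw [one_mul]
    exact hS0 n hz
  refine eventually_eq_of_pencil (1 : κ) P.s S P.T n2 hST hS0' hS1 hpen ?_
  intro z hz
  obtain ⟨N, hN⟩ := hfin z hz.1
  obtain ⟨a', ha'⟩ := hinf _ hz.2
  -- `s^{a'} z ∈ S (n2 + a')`
  have h1 : P.s ^ a' * z ∈ S (n2 + a') := by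
    have := pow_s_mul_mem P S hS1 n2 a' _ ha'
    have e : P.s ^ n2 * (P.s ^ a' * (z * P.sinv ^ n2)) = P.s ^ a' * z := by
      have : P.s ^ n2 * P.sinv ^ n2 = 1 := by rw [← mul_pow, P.s_mul_sinv, one_pow]
      calc P.s ^ n2 * (P.s ^ a' * (z * P.sinv ^ n2))
          = (P.s ^ n2 * P.sinv ^ n2) * (P.s ^ a' * z) := by ring
        _ = P.s ^ a' * z := by rw [this, one_mul]
    rw [e, Nat.add_comm] at this
    exact this
  refine ⟨max N a', ?_, ?_⟩
  · rw [one_pow, one_mul]
    exact S_mono_of_succ S hS0 (by have := le_max_left N a'; omega) hN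
  · obtain ⟨d, hd⟩ := Nat.exists_eq_add_of_le (le_max_right N a')
    have := pow_s_mul_mem P S hS1 d _ _ h1
    have e : P.s ^ d * (P.s ^ a' * z) = P.s ^ (max N a') * z := by
      rw [hd, pow_add]; ring
    rw [e] at this
    have e2 : n2 + a' + d = n2 + max N a' := by omega
    rw [e2] at this
    exact this

/-- The `hdimT` hypothesis of `claim2_core` (`finrank (P.T n) + g' ≤ n d + 1` for large `n`)
from the same bound for `S` — i.e. from rank preservation of the reduction plus Riemann's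
theorem on the generic fibre. -/
theorem exists_hdimT [hfd : ∀ n, FiniteDimensional k (P.T n)]
    (C c : ℕ) (hb : ∀ n, finrank k (P.T n) ≤ C * n + c)
    (hST : ∀ n, S n ≤ P.T n)
    (hS0 : ∀ n, S n ≤ S (n + 1))
    (hS1 : ∀ n, ∀ z ∈ S n, P.s * z ∈ S (n + 1))
    (hfin : ∀ z ∈ P.Bt, ∃ N, z ∈ S N)
    (hinf : ∀ y ∈ P.Binf, ∃ a, P.s ^ a * y ∈ S a)
    (g' d c1 : ℕ) (hdimS : ∀ n, c1 ≤ n → finrank k (S n) + g' ≤ n * d + 1) :
    ∃ c0, ∀ n, c0 ≤ n → finrank k (P.T n) + g' ≤ n * d + 1 := by
  obtain ⟨N0, hN0⟩ := eventually_eq P S C c hb hST hS0 hS1 hfin hinf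
  refine ⟨max N0 c1, fun n hn => ?_⟩
  rw [← hN0 n (le_trans (le_max_left _ _) hn)]
  exact hdimS n (le_trans (le_max_right _ _) hn)

end Sat

end Fermat.Agent.GL.ChartSat
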